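/-
Programme T1B (row 38 via S44), cell J-BRIDGE, **THE HUB PLUG** (helper59, assigned by helper41):
the bridge `j` of `Local66.Glue.localGeom_of_fields` as ONE NAMED TERM on the concrete hub
`Hub9` (`H : HubParams p M' K`, `c0 := c0S H`, level `N = M' * p`).

Input (helper48, `Bridge48/HubFam9.lean`): `famS H : Bridge39.ChartIsoFamilyN (padicPlace p) (M' * p) K
(c0S H)`, `nontrivial_S H` (= `hnt`), `h0Const_S H` (= `hH0`).

* `secS H : Bridge39.TorsSec (M' * p) K p` (a chosen section over the `p`-torsion);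
* **`jS H : ↥(J₀(M' p)(ℚ̄)[p]) →+ Atop p K (c0S H)`** `:= Bridge54.JTop.jTop (famS H) (secS H)`;
* **`jS_injective`** (= `j_inj`), **`jS_res`** (= `j_res` verbatim, `hK := H.inertFixed`),
  **`jS_mem_PtTop`** (= `j_Pt`), `jS_eq_level`, **`jS_eq_bcE`** (the form consumed by
  `ADPe93.completionAbove` / CMP `hJ`), `jS_mem_picPt`.

`torsP N p` of `Local66.Assembly` is an `abbrev` for `Pic0.torsion ℚ̄ (modularFunctionFieldBar N) p`, which
is the spelling used here (so that this file does not import `Local66.Assembly`).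
-/
import Mathlib
import Fermat.Agent.T1B.Hub9.Data
import Fermat.Agent.T1B.Bridge48.HubFam9
import Fermat.Agent.T1B.Bridge54.JTop

set_option autoImplicit false
set_option linter.unusedSectionVars false
set_option linter.unusedVariables false
set_option linter.style.haveILetI false
set_option synthInstance.maxHeartbeats 400000
set_option maxHeartbeats 1000000

open TensorProduct AlgebraicCurve ModularCurve
open Fermat.Agent Fermat.Agent.Jac
open Fermat.Agent.TW.B5.Iface Fermat.Agent.RED.Interface4 Fermat.Agent.T1.HubInst98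
open Fermat.Agent.RED.PUR.GaussGen8 Fermat.Agent.RED.BASE.EtaQuot12
open Fermat.Agent.T1.IntSub47 Fermat.Agent.T1.RedIface75 Fermat.Agent.T1.Red11
open Fermat.Agent.T1.Coh60
open Fermat.Agent.T1.PtLine75 Fermat.Agent.T1.CentresClass47
open Fermat.Agent.T1.Assembly41.Concrete
open Fermat.Agent.ES.N34.ModelDefs9 Fermat.Agent.ES.N34.NumData13
open Fermat.Agent.ES.P36.InertField27 (InertFixed)
open Fermat.Agent.T1B.NodalFacts23 Fermat.Agent.T1B.NodalCoh30
open Fermat.Agent.T1B.Local66.LocalBase Fermat.Agent.T1B.Local66.Union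
open Fermat.Agent.T1B.Local66.Objects
open Fermat.Agent.T1B.Plumb66.Inertia (Ip mem_Ip)
open Fermat.Agent.T1B.Bridge54.IpAction Fermat.Agent.T1B.Bridge54.IpInst
open Fermat.Agent.T1B.Bridge54.IpRes
open Fermat.Agent.T1B.Bridge39 Fermat.Agent.T1B.Bridge39.ChartIsoFamilyN
open Fermat.Agent.T1B.Bridge48.HubRec Fermat.Agent.T1B.Bridge48.HubFam
open Fermat.Agent.T1B.Bridge48.HubFam9
open Fermat.Agent.T1B.Bridge54.JTop
open Fermat.Agent.T1B.Hub9
open Fermat.Agent.Jac.BaseChange75
open scoped Fermat.Agent.Jac.BaseChange75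
open scoped Fermat.Agent.T1.Assembly41.FastInst

attribute [local instance] Fermat.Agent.T1.Coh60.algebra0 Fermat.Agent.T1.Coh60.algebra1
  Fermat.Agent.T1.Coh60.isScalarTower0 Fermat.Agent.T1.Coh60.isScalarTower1

noncomputable section

namespace Fermat.Agent.T1B.Bridge59.HubJ

variable {p M' : ℕ} [Fact p.Prime] [NeZero p] [NeZero M'] {K : IntermediateField ℚ Qbar}
  [FiniteDimensional ℚ K] (H : HubParams p M' K)

/-- `J₀(M' p)(ℚ̄)[p]` (= `Local66.Assembly.torsP (M' * p) p`). -/
local notation "TorsS" => Pic0.torsion Qbar (modularFunctionFieldBar (M' * p)) p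

/-! ### (3) The torsion section -/

/-- **A section of `Div⁰ → J₀(M' p)(ℚ̄)` over the `p`-torsion**, rational over a number field. -/
def secS (H : HubParams p M' K) : TorsSec (M' * p) K p :=
  Classical.choice (nonempty_torsSec (M' * p) K p H.hp.ne_zero)

/-! ### (4) The bridge -/

/-- **THE BRIDGE `j` OF THE CONCRETE HUB**: `J₀(M' p)(ℚ̄)[p] →+ Pic X_{ℚ̄_p}`. -/
def jS : ↥TorsS →+ Atop p K (c0S H) := jTop (famS H) (secS H)

/-- **`j_inj`** on the concrete hub. -/
theorem jS_injective : Function.Injective (jS H) :=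
  jTop_injective (famS H) (secS H) (nontrivial_S H) (h0Const_S H)

/-- **`j_res`** on the concrete hub, verbatim the binder of `Local66.Glue.localGeom_of_fields`
(`hK := H.inertFixed`, `N := M' * p`). -/
theorem jS_res :
    letI := actTop (c0S H) H.inertFixed
    ∀ (τ : ↥(Ip p)) (x : JZero (M' * p)) (hx : x ∈ TorsS)
      (hx' : localGaloisToGlobal p (τ : Gp p) • x ∈ TorsS),
      jS H ⟨_, hx'⟩ = τ • jS H ⟨x, hx⟩ :=
  fun τ x hx hx' => jTop_res (famS H) (secS H) H.inertFixed τ x hx hx'

/-- **`j_Pt`** on the concrete hub. -/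
theorem jS_mem_PtTop [Nonempty (NLevel p K)] (x : ↥TorsS) : jS H x ∈ PtTop (c0S H) :=
  jTop_mem_PtTop (famS H) (secS H) x

/-- the bridge, computed at any finite normal level `L ⊇ (secS H).L₀`. -/
theorem jS_eq_level (L : IntermediateField ℚ Qbar) [FiniteDimensional ℚ L] [Normal ℚ L]
    (hle : (secS H).L₀ ≤ L) (x : ↥TorsS) :
    jS H x = Additive.ofMul
      (bcL (c0S H) ((secS H).le₀.trans hle) ((famS H).d (secS H) L hle x)) :=
  jTop_eq_level (famS H) (secS H) L hle x

/-- the bridge through the `p`-adic level `E` (`(secS H).L₀ ≤ E.L`): the form consumed by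
`ADPe93.completionAbove` and by the CMP cell. -/
theorem jS_eq_bcE (E : NLevel p K) (hle : (secS H).L₀ ≤ E.L) (x : ↥TorsS) :
    jS H x = Additive.ofMul
      (bcE (c0S H) E (bcLE (c0S H) E ((famS H).d (secS H) E.L hle x))) :=
  jTop_eq_bcE (famS H) (secS H) E hle x

/-- the values of `j` are classes of `ℚ̄_p`-points. -/
theorem jS_mem_picPt (x : ↥TorsS) :
    letI := algWKbar p K
    Additive.toMul (jS H x) ∈ (pointClasses (c0S H)).PicPt (Kbar p) :=
  jTop_mem_picPt (famS H) (secS H) x

end Fermat.Agent.T1B.Bridge59.HubJ
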